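import Mathlib

/-!
# S48 / RK-Bessel : Bessel inequality for an absolutely convergent Fourier series (Mathlib only)

PROOF SKETCH.  Work on `AddCircle (1 : ℝ)` with `haarAddCircle` (a probability measure).
`g := ∑' n, b n • fourier (n : ℤ)` in `C(AddCircle 1, ℂ)` (summable: `‖fourier n‖ = 1`, `hb`).
`‖g‖ ≤ M` by `hbd` (`fourier_coe_apply`; every point of `AddCircle 1` is `(x : AddCircle 1)`, evaluation is
continuous linear so it commutes with `∑'`).  In `Lp ℂ 2 haarAddCircle`: `G := ContinuousMap.toLp 2 _ ℂ g`,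
`‖G‖ ≤ ‖g‖` (`ContinuousMap.toLp_norm_le`, probability measure), `G = ∑' n, b n • fourierLp 2 n` (continuous linear
map), `⟪fourierLp 2 m, G⟫ = b m` (`orthonormal_fourier`), and `Orthonormal.sum_inner_products_le` gives the claim
(after mapping `S` into `ℤ`).
An alternative without measure theory: `(1/K) ∑_{j<K} |g(j/K)|² = ∑_{r mod K} |∑_{n ≡ r} b n|²` and `K → ∞`.
-/

set_option autoImplicit false

namespace Fermat.Agent.S48.RK

theorem bessel (b : ℕ → ℂ) (hb : Summable fun n => ‖b n‖) (M : ℝ) (hM : 0 ≤ M)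
    (hbd : ∀ x : ℝ, ‖∑' n : ℕ, b n * Complex.exp (2 * Real.pi * Complex.I * n * x)‖ ≤ M)
    (S : Finset ℕ) : ∑ n ∈ S, ‖b n‖ ^ 2 ≤ M ^ 2 := by
  have : Fact (0 < (1 : ℝ)) := ⟨one_pos⟩
  let f : ℕ → C(AddCircle (1 : ℝ), ℂ) := fun n => b n • fourier (n : ℤ)
  have hf : Summable f := by
    apply Summable.of_norm
    have h1 : (fun n => ‖f n‖) = fun n => ‖b n‖ := by
      funext n
      simp [f, norm_smul, fourier_norm]
    rw [h1]
    exact hb
  obtain ⟨g, hgdef⟩ : ∃ g : C(AddCircle (1 : ℝ), ℂ), g = ∑' n, f n := ⟨_, rfl⟩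
  have hg : ‖g‖ ≤ M := by
    rw [ContinuousMap.norm_le _ hM]
    intro x
    obtain ⟨x, rfl⟩ := QuotientAddGroup.mk_surjective x
    have h1 : g (x : AddCircle (1 : ℝ)) =
        ∑' n : ℕ, b n * Complex.exp (2 * Real.pi * Complex.I * n * x) := by
      rw [hgdef, ← ContinuousMap.tsum_apply hf]
      refine tsum_congr fun n => ?_
      show b n * fourier (n : ℤ) (x : AddCircle (1 : ℝ)) = _
      rw [fourier_coe_apply]
      simp
    rw [h1]
    exact hbd x
  let v : ℕ → MeasureTheory.Lp ℂ 2 (AddCircle.haarAddCircle : MeasureTheory.Measure (AddCircle (1 : ℝ))) :=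
    fun n => fourierLp 2 (n : ℤ)
  have hv : Orthonormal ℂ v := orthonormal_fourier.comp _ Nat.cast_injective
  let Φ : C(AddCircle (1 : ℝ), ℂ) →L[ℂ] MeasureTheory.Lp ℂ 2
      (AddCircle.haarAddCircle : MeasureTheory.Measure (AddCircle (1 : ℝ))) :=
    ContinuousMap.toLp 2 AddCircle.haarAddCircle ℂ
  have hG : HasSum (fun n => b n • v n) (Φ g) := by
    have h1 := hf.hasSum.mapL Φ
    rw [← hgdef] at h1
    have h2 : (fun n => Φ (f n)) = fun n => b n • v n := by
      funext n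
      simp only [f, map_smul]
      rfl
    rwa [h2] at h1
  have hin : ∀ m, inner ℂ (v m) (Φ g) = b m := by
    intro m
    have h1 := hG.mapL (innerSL ℂ (v m))
    have h2 : (fun n => innerSL ℂ (v m) (b n • v n)) = fun n => if n = m then b m else 0 := by
      funext n
      rw [innerSL_apply_apply, inner_smul_right, orthonormal_iff_ite.1 hv m n]
      by_cases h : n = m
      · subst h
        simp
      · rw [if_neg h, if_neg (fun h' => h h'.symm), mul_zero]
    rw [h2] at h1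
    exact h1.unique (hasSum_ite_eq m (b m))
  have hle := hv.sum_inner_products_le (x := Φ g) (s := S)
  have hΦ : ‖Φ g‖ ≤ M := by
    have h1 : ‖Φ‖ ≤ 1 := by
      have h2 := ContinuousMap.toLp_norm_le (p := 2) (μ := (AddCircle.haarAddCircle :
        MeasureTheory.Measure (AddCircle (1 : ℝ)))) (𝕜 := ℂ) (E := ℂ)
      simpa [MeasureTheory.measureUnivNNReal] using h2
    calc ‖Φ g‖ ≤ ‖Φ‖ * ‖g‖ := Φ.le_opNorm g
      _ ≤ 1 * M := by gcongr
      _ = M := one_mul M
  calc ∑ n ∈ S, ‖b n‖ ^ 2 = ∑ n ∈ S, ‖inner ℂ (v n) (Φ g)‖ ^ 2 := by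
        refine Finset.sum_congr rfl fun n _ => ?_
        rw [hin]
    _ ≤ ‖Φ g‖ ^ 2 := hle
    _ ≤ M ^ 2 := by gcongr

end Fermat.Agent.S48.RK
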