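import Mathlib

/-!
# S48 / RK : definitions

`Formal good e a` : the formal Hecke relations of weight one "with character `e`" at the good primes.
`MeanSq a C₁`     : `∑_{1 ≤ n ≤ X} |a n|² ≤ C₁ X` for all `X`.

GOAL of the part (file `RK/Main.lean`):
`∑_{p ∈ P} |a p|² p^{-s} ≤ log (1 / (s - 1)) + C` for all `1 < s ≤ 2` and all finite sets `P` of good primes.
-/

set_option autoImplicit false

namespace Fermat.Agent.S48.RK

/-- Formal Hecke relations at the good primes. -/
structure Formal (good : ℕ → Prop) (e a : ℕ → ℂ) : Prop where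
  one : a 1 = 1
  rel : ∀ p : ℕ, p.Prime → good p → ∀ n : ℕ,
    a (p * n) + e p * (if p ∣ n then a (n / p) else 0) = a p * a n
  norm_e : ∀ p : ℕ, p.Prime → good p → ‖e p‖ = 1

/-- Mean square bound. -/
def MeanSq (a : ℕ → ℂ) (C₁ : ℝ) : Prop :=
  ∀ X : ℕ, ∑ n ∈ Finset.Icc 1 X, ‖a n‖ ^ 2 ≤ C₁ * X

end Fermat.Agent.S48.RK
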