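import Mathlib

/-!
# S48 / RK-Dirichlet : from a linear bound for the partial sums to `D(s) ≤ 4 C₁ / (s - 1)` (Mathlib only)

PROOF SKETCH (dyadic).  `C₁ ≥ 0` (`X = 1`).  For `K : ℕ`,
`∑_{1 ≤ n < 2^K} c n n^{-s} ≤ ∑_{k < K} 2 C₁ r^k`, `r = 2^{-(s-1)}` (induction on `K`: on `2^K ≤ n < 2^{K+1}`,
`n^{-s} ≤ 2^{-Ks}` and `∑ c n ≤ C₁ 2^{K+1}`).  Geometric series `≤ 2 C₁ / (1 - r)`;
`1 - 2^{-t} ≥ t / 2` for `0 ≤ t ≤ 1` (concavity, or `2^{-t} = exp(-t log 2) ≤ 1 - t log 2 + (t log 2)²/2`, or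
`2^t ≥ 1 + t log 2 ≥ 1 + t/2·…`; simplest: `2^{-t} ≤ 1 - t/2` follows from convexity of `rpow` :
`2^{-t} = 2^{(1-t)·0 + t·(-1)} ≤ (1-t)·1 + t·(1/2)`).  Every finite `S ⊆ [1, ∞)` is contained in some `[1, 2^K)`.
-/

set_option autoImplicit false

namespace Fermat.Agent.S48.RK

theorem Dirichlet_two_rpow_le {t : ℝ} (h0 : 0 ≤ t) (h1 : t ≤ 1) : (2 : ℝ) ^ (-t) ≤ 1 - t / 2 := by
  have h := rpow_one_add_le_one_add_mul_self (s := -1 / 2) (by norm_num) h0 h1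
  have h2 : (2 : ℝ) ^ (-t) = (1 + -1 / 2 : ℝ) ^ t := by
    rw [Real.rpow_neg (by norm_num), ← Real.inv_rpow (by norm_num)]
    norm_num
  rw [h2]
  linarith

theorem Dirichlet_dyadic (c : ℕ → ℝ) (hc : ∀ n, 0 ≤ c n) (C₁ : ℝ)
    (h : ∀ X : ℕ, ∑ n ∈ Finset.Icc 1 X, c n ≤ C₁ * X) (s : ℝ) (hs : 1 < s) (K : ℕ) :
    ∑ n ∈ Finset.Ico 1 (2 ^ K), c n * (n : ℝ) ^ (-s) ≤
      ∑ k ∈ Finset.range K, 2 * C₁ * ((2 : ℝ) ^ (-(s - 1))) ^ k := by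
  induction K with
  | zero => simp
  | succ K ih =>
    have h1 : (1 : ℕ) ≤ 2 ^ K := Nat.one_le_two_pow
    have h2 : 2 ^ K ≤ 2 ^ (K + 1) := Nat.pow_le_pow_right (by norm_num) (Nat.le_succ K)
    rw [← Finset.sum_Ico_consecutive _ h1 h2, Finset.sum_range_succ]
    refine add_le_add ih ?_
    have hpos : (0 : ℝ) < (2 : ℝ) ^ K := by positivity
    have hb : ∀ n ∈ Finset.Ico (2 ^ K) (2 ^ (K + 1)), c n * (n : ℝ) ^ (-s) ≤
        c n * ((2 : ℝ) ^ K) ^ (-s) := by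
      intro n hn
      have hn1 : 2 ^ K ≤ n := (Finset.mem_Ico.mp hn).1
      have hn2 : ((2 : ℝ) ^ K) ≤ (n : ℝ) := by exact_mod_cast hn1
      exact mul_le_mul_of_nonneg_left
        (Real.rpow_le_rpow_of_nonpos hpos hn2 (by linarith)) (hc n)
    have hsub : Finset.Ico (2 ^ K) (2 ^ (K + 1)) ⊆ Finset.Icc 1 (2 ^ (K + 1)) := by
      intro n hn
      rw [Finset.mem_Ico] at hn
      rw [Finset.mem_Icc]
      exact ⟨le_trans h1 hn.1, hn.2.le⟩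
    have hsum : ∑ n ∈ Finset.Ico (2 ^ K) (2 ^ (K + 1)), c n ≤ C₁ * ((2 : ℝ) ^ (K + 1)) := by
      refine le_trans (Finset.sum_le_sum_of_subset_of_nonneg hsub fun n _ _ => hc n) ?_
      have := h (2 ^ (K + 1))
      exact_mod_cast this
    have hpw : ((2 : ℝ) ^ K) ^ (-s) * (2 : ℝ) ^ (K + 1) = 2 * ((2 : ℝ) ^ (-(s - 1))) ^ K := by
      have e1 : ((2 : ℝ) ^ K) ^ (-s) = (2 : ℝ) ^ (-s * K) := by
        rw [← Real.rpow_natCast 2 K, ← Real.rpow_mul (by norm_num), mul_comm]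
      have e2 : ((2 : ℝ) ^ (-(s - 1))) ^ K = (2 : ℝ) ^ (-(s - 1) * K) := by
        rw [← Real.rpow_natCast _ K, ← Real.rpow_mul (by norm_num)]
      have e3 : (2 : ℝ) ^ (K + 1) = (2 : ℝ) ^ ((K : ℝ) + 1) := by
        rw [← Real.rpow_natCast 2 (K + 1)]
        push_cast
        rfl
      have e4 : (2 : ℝ) * (2 : ℝ) ^ (-(s - 1) * K) = (2 : ℝ) ^ (1 + -(s - 1) * K) := by
        rw [Real.rpow_add (by norm_num), Real.rpow_one]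
      rw [e1, e2, e3, e4, ← Real.rpow_add (by norm_num)]
      congr 1
      ring
    calc ∑ n ∈ Finset.Ico (2 ^ K) (2 ^ (K + 1)), c n * (n : ℝ) ^ (-s)
        ≤ ∑ n ∈ Finset.Ico (2 ^ K) (2 ^ (K + 1)), c n * ((2 : ℝ) ^ K) ^ (-s) :=
          Finset.sum_le_sum hb
      _ = (∑ n ∈ Finset.Ico (2 ^ K) (2 ^ (K + 1)), c n) * ((2 : ℝ) ^ K) ^ (-s) := by
          rw [Finset.sum_mul]
      _ ≤ C₁ * ((2 : ℝ) ^ (K + 1)) * ((2 : ℝ) ^ K) ^ (-s) :=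
          mul_le_mul_of_nonneg_right hsum (Real.rpow_nonneg hpos.le _)
      _ = C₁ * (((2 : ℝ) ^ K) ^ (-s) * (2 : ℝ) ^ (K + 1)) := by ring
      _ = 2 * C₁ * ((2 : ℝ) ^ (-(s - 1))) ^ K := by rw [hpw]; ring

theorem dirichlet_bound (c : ℕ → ℝ) (hc : ∀ n, 0 ≤ c n) (C₁ : ℝ)
    (h : ∀ X : ℕ, ∑ n ∈ Finset.Icc 1 X, c n ≤ C₁ * X) (s : ℝ) (hs : 1 < s) (hs2 : s ≤ 2)
    (S : Finset ℕ) (hS : ∀ n ∈ S, 1 ≤ n) :
    ∑ n ∈ S, c n * (n : ℝ) ^ (-s) ≤ 4 * C₁ / (s - 1) := by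
  have hC : 0 ≤ C₁ := by
    have := h 1
    simp at this
    exact le_trans (hc 1) this
  set r : ℝ := (2 : ℝ) ^ (-(s - 1)) with hr
  have hr0 : 0 ≤ r := Real.rpow_nonneg (by norm_num) _
  have hr1 : r ≤ 1 - (s - 1) / 2 := Dirichlet_two_rpow_le (by linarith) (by linarith)
  have hr1' : r < 1 := by linarith
  have hsub : S ⊆ Finset.Ico 1 (2 ^ (S.sup id)) := by
    intro n hn
    rw [Finset.mem_Ico]
    refine ⟨hS n hn, lt_of_lt_of_le Nat.lt_two_pow_self ?_⟩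
    exact Nat.pow_le_pow_right (by norm_num) (Finset.le_sup (f := id) hn)
  have h1 : ∑ n ∈ S, c n * (n : ℝ) ^ (-s) ≤
      ∑ n ∈ Finset.Ico 1 (2 ^ (S.sup id)), c n * (n : ℝ) ^ (-s) :=
    Finset.sum_le_sum_of_subset_of_nonneg hsub fun n _ _ =>
      mul_nonneg (hc n) (Real.rpow_nonneg (Nat.cast_nonneg n) _)
  have h2 := Dirichlet_dyadic c hc C₁ h s hs (S.sup id)
  rw [← hr, ← Finset.mul_sum] at h2
  have h3 : ∑ k ∈ Finset.range (S.sup id), r ^ k ≤ 2 / (s - 1) := by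
    have h4 : ∑ k ∈ Finset.range (S.sup id), r ^ k ≤ (1 - r)⁻¹ := by
      rw [geom_sum_eq hr1'.ne, ← neg_div_neg_eq, neg_sub, neg_sub, div_eq_mul_inv]
      refine mul_le_of_le_one_left (inv_nonneg.mpr (by linarith)) ?_
      have := pow_nonneg hr0 (S.sup id)
      linarith
    refine le_trans h4 ?_
    rw [inv_eq_one_div, div_le_div_iff₀ (by linarith) (by linarith)]
    linarith
  calc ∑ n ∈ S, c n * (n : ℝ) ^ (-s) ≤ 2 * C₁ * ∑ k ∈ Finset.range (S.sup id), r ^ k :=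
        le_trans h1 h2
    _ ≤ 2 * C₁ * (2 / (s - 1)) := mul_le_mul_of_nonneg_left h3 (by linarith)
    _ = 4 * C₁ / (s - 1) := by ring

end Fermat.Agent.S48.RK
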