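import Fermat.Agent.S48.RK.Defs

/-!
# S48 / RK-Formal : formal consequences of the Hecke relations

* `pow_succ_succ` : `rel` with `n = p^(r+1)`.
* `sq` : `r = 0`.
* `mul_pow` : two-step induction on `r` (`rel` with `n = p^(r+1) m`).
* `exists_finset` : induction on `P` (`Finset.induction_on`): `S' = S ∪ p₀ S ∪ p₀² S` (disjoint: the elements of `S` are
  prime to `p₀`), `g(p₀^r n) = g(p₀^r) g(n)` by `mul_pow` and `Real.mul_rpow`.
-/

set_option autoImplicit false

namespace Fermat.Agent.S48.RK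

variable {good : ℕ → Prop} {e a : ℕ → ℂ}

theorem Formal.pow_succ_succ (h : Formal good e a) {p : ℕ} (hp : p.Prime) (hg : good p) (r : ℕ) :
    a (p ^ (r + 2)) = a p * a (p ^ (r + 1)) - e p * a (p ^ r) := by
  have h1 := h.rel p hp hg (p ^ (r + 1))
  have h2 : p ∣ p ^ (r + 1) := dvd_pow_self p (Nat.succ_ne_zero r)
  have h3 : p ^ (r + 1) / p = p ^ r := by
    rw [pow_succ, Nat.mul_div_cancel _ hp.pos]
  have h4 : p * p ^ (r + 1) = p ^ (r + 2) := by ring
  rw [if_pos h2, h3, h4] at h1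
  linear_combination h1

theorem Formal.sq (h : Formal good e a) {p : ℕ} (hp : p.Prime) (hg : good p) :
    a (p ^ 2) = a p ^ 2 - e p := by
  have h1 := h.pow_succ_succ hp hg 0
  rw [zero_add, zero_add, pow_one, pow_zero, h.one] at h1
  rw [h1]
  ring

theorem Formal.mul_pow (h : Formal good e a) {p : ℕ} (hp : p.Prime) (hg : good p) (r n : ℕ)
    (hn : ¬ p ∣ n) : a (p ^ r * n) = a (p ^ r) * a n := by
  induction r using Nat.twoStepInduction with
  | zero => rw [pow_zero, one_mul, h.one, one_mul]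
  | one =>
    have h1 := h.rel p hp hg n
    rw [if_neg hn, mul_zero, add_zero] at h1
    rw [pow_one, h1]
  | more r ih0 ih1 =>
    have h1 := h.rel p hp hg (p ^ (r + 1) * n)
    have h2 : p ∣ p ^ (r + 1) * n := Dvd.dvd.mul_right (dvd_pow_self p (Nat.succ_ne_zero r)) n
    have h3 : p ^ (r + 1) * n / p = p ^ r * n := by
      rw [pow_succ, mul_assoc, mul_comm p n, ← mul_assoc, Nat.mul_div_cancel _ hp.pos]
    have h4 : p * (p ^ (r + 1) * n) = p ^ (r + 2) * n := by ring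
    rw [if_pos h2, h3, h4, ih0, ih1] at h1
    rw [h.pow_succ_succ hp hg r]
    linear_combination h1

/-- `(r, n) ↦ p ^ r * n` is injective on pairs with `p ∤ n`. -/
theorem Formal.pow_mul_injOn {p : ℕ} (hp : p.Prime) {r r' n n' : ℕ} (hn : ¬ p ∣ n) (hn' : ¬ p ∣ n')
    (heq : p ^ r * n = p ^ r' * n') : r = r' ∧ n = n' := by
  have := Fact.mk hp
  have hn0 : n ≠ 0 := fun h0 => hn (h0 ▸ dvd_zero p)
  have hn0' : n' ≠ 0 := fun h0 => hn' (h0 ▸ dvd_zero p)
  have hpr : ∀ k : ℕ, p ^ k ≠ 0 := fun k => pow_ne_zero k hp.ne_zero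
  have h1 : padicValNat p (p ^ r * n) = r := by
    rw [padicValNat.mul (hpr r) hn0, padicValNat.prime_pow, padicValNat.eq_zero_of_not_dvd hn,
      add_zero]
  have h2 : padicValNat p (p ^ r' * n') = r' := by
    rw [padicValNat.mul (hpr r') hn0', padicValNat.prime_pow, padicValNat.eq_zero_of_not_dvd hn',
      add_zero]
  have hr : r = r' := by rw [← h1, heq, h2]
  subst hr
  exact ⟨rfl, Nat.eq_of_mul_eq_mul_left (Nat.pos_of_ne_zero (hpr r)) heq⟩

/-- The finite Euler product (truncated at the squares) is a finite sub-sum of the Dirichlet series. -/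
theorem Formal.exists_finset (h : Formal good e a) (s : ℝ) (P : Finset ℕ)
    (hP : ∀ p ∈ P, p.Prime ∧ good p) :
    ∃ S : Finset ℕ, (∀ n ∈ S, 1 ≤ n) ∧ (∀ n ∈ S, ∀ q : ℕ, q.Prime → q ∣ n → q ∈ P) ∧
      ∏ p ∈ P, (1 + ‖a p‖ ^ 2 * (p : ℝ) ^ (-s) + ‖a (p ^ 2)‖ ^ 2 * ((p : ℝ) ^ (-s)) ^ 2)
        = ∑ n ∈ S, ‖a n‖ ^ 2 * (n : ℝ) ^ (-s) := by
  classical
  induction P using Finset.induction_on with
  | empty =>
    refine ⟨{1}, fun n hn => ?_, fun n hn q hq hqn => ?_, ?_⟩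
    · rw [Finset.mem_singleton.1 hn]
    · rw [Finset.mem_singleton.1 hn] at hqn
      exact absurd (Nat.dvd_one.1 hqn) hq.one_lt.ne'
    · rw [Finset.prod_empty, Finset.sum_singleton, h.one]
      simp
  | insert p₀ P hp₀ ih =>
    obtain ⟨S, hS1, hS2, hS3⟩ := ih (fun p hp => hP p (Finset.mem_insert_of_mem hp))
    obtain ⟨hpp, hpg⟩ := hP p₀ (Finset.mem_insert_self _ _)
    have hcop : ∀ n ∈ S, ¬ p₀ ∣ n := fun n hn hd => hp₀ (hS2 n hn p₀ hpp hd)
    refine ⟨(Finset.range 3 ×ˢ S).image (fun x : ℕ × ℕ => p₀ ^ x.1 * x.2), ?_, ?_, ?_⟩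
    · intro n hn
      obtain ⟨⟨r, k⟩, hx, rfl⟩ := Finset.mem_image.1 hn
      have hk := hS1 k (Finset.mem_product.1 hx).2
      exact Nat.one_le_iff_ne_zero.2 (mul_ne_zero (pow_ne_zero _ hpp.ne_zero) (by omega))
    · intro n hn q hq hqn
      obtain ⟨⟨r, k⟩, hx, rfl⟩ := Finset.mem_image.1 hn
      rcases (Nat.Prime.dvd_mul hq).1 hqn with h1 | h1
      · have := (Nat.prime_dvd_prime_iff_eq hq hpp).1 (hq.dvd_of_dvd_pow h1)
        rw [this]
        exact Finset.mem_insert_self _ _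
      · exact Finset.mem_insert_of_mem (hS2 k (Finset.mem_product.1 hx).2 q hq h1)
    · rw [Finset.prod_insert hp₀, hS3, Finset.sum_image]
      · rw [Finset.sum_product]
        have key : ∀ r : ℕ, ∀ n ∈ S, ‖a (p₀ ^ r * n)‖ ^ 2 * ((p₀ ^ r * n : ℕ) : ℝ) ^ (-s) =
            (‖a (p₀ ^ r)‖ ^ 2 * ((p₀ : ℝ) ^ (-s)) ^ r) * (‖a n‖ ^ 2 * (n : ℝ) ^ (-s)) := by
          intro r n hn
          rw [h.mul_pow hpp hpg r n (hcop n hn), norm_mul, _root_.mul_pow]
          have e1 : ((p₀ ^ r * n : ℕ) : ℝ) ^ (-s) = ((p₀ : ℝ) ^ (-s)) ^ r * (n : ℝ) ^ (-s) := by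
            push_cast
            rw [Real.mul_rpow (by positivity) (by positivity), ← Real.rpow_natCast,
              ← Real.rpow_natCast, ← Real.rpow_mul (by positivity), ← Real.rpow_mul (by positivity),
              mul_comm (r : ℝ) (-s)]
          rw [e1]
          ring
        have key2 : ∀ r ∈ Finset.range 3,
            ∑ n ∈ S, ‖a (p₀ ^ r * n)‖ ^ 2 * ((p₀ ^ r * n : ℕ) : ℝ) ^ (-s) =
            (‖a (p₀ ^ r)‖ ^ 2 * ((p₀ : ℝ) ^ (-s)) ^ r) * ∑ n ∈ S, ‖a n‖ ^ 2 * (n : ℝ) ^ (-s) := by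
          intro r _
          rw [Finset.mul_sum]
          exact Finset.sum_congr rfl (key r)
        rw [Finset.sum_congr rfl key2, ← Finset.sum_mul]
        congr 1
        rw [Finset.sum_range_succ, Finset.sum_range_succ, Finset.sum_range_one, pow_zero, pow_zero,
          h.one, pow_one, pow_one]
        simp
      · rintro ⟨r, n⟩ hx ⟨r', n'⟩ hx' heq
        have hx1 := (Finset.mem_product.1 (Finset.mem_coe.1 hx)).2
        have hx2 := (Finset.mem_product.1 (Finset.mem_coe.1 hx')).2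
        obtain ⟨e1, e2⟩ := Formal.pow_mul_injOn hpp (hcop n hx1) (hcop n' hx2) heq
        exact Prod.ext e1 e2

end Fermat.Agent.S48.RK
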