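import Fermat.Agent.S48.RK.Formal

/-!
# S48 / RK-Growth : `|a_p| ≤ 1 + √p`

PROOF SKETCH.  Suppose `x := |a_p| > 1 + √p`, `ρ := x - 1 > √p ≥ 1`, so `x - 1/ρ ≥ ρ`.
`|a(p^(r+1))| ≥ ρ |a(p^r)|` by induction (`pow_succ_succ`, `‖e p‖ = 1`):
`|a(p^(r+2))| ≥ x |a(p^(r+1))| - |a(p^r)| ≥ (x - 1/ρ) |a(p^(r+1))|`.  So `|a(p^r)| ≥ ρ^r`.
`MeanSq` with `X = p^r` : `ρ^(2r) ≤ |a(p^r)|² ≤ C₁ p^r`, so `(ρ²/p)^r ≤ C₁` for all `r`, with `ρ²/p > 1`: contradiction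
(`tendsto_pow_atTop_atTop_of_one_lt` or Bernoulli `one_add_mul_le_pow`).
-/

set_option autoImplicit false

namespace Fermat.Agent.S48.RK

variable {good : ℕ → Prop} {e a : ℕ → ℂ}

theorem Formal.norm_le (h : Formal good e a) {C₁ : ℝ} (hm : MeanSq a C₁) {p : ℕ} (hp : p.Prime)
    (hg : good p) : ‖a p‖ ≤ 1 + Real.sqrt p := by
  by_contra hcon
  rw [not_le] at hcon
  obtain ⟨ρ, hρ⟩ : ∃ ρ : ℝ, ‖a p‖ = ρ + 1 := ⟨‖a p‖ - 1, by ring⟩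
  have hp1 : (1 : ℝ) ≤ p := by exact_mod_cast hp.one_lt.le
  have hp0 : (0 : ℝ) < p := by linarith
  have hsq1 : 1 ≤ Real.sqrt p := by
    rw [Real.one_le_sqrt]
    exact hp1
  have hρs : Real.sqrt p < ρ := by linarith
  have hρ1 : 1 ≤ ρ := by linarith
  have step : ∀ r, ρ * ‖a (p ^ r)‖ ≤ ‖a (p ^ (r + 1))‖ := by
    intro r
    induction r with
    | zero =>
      rw [pow_zero, h.one, norm_one, mul_one, zero_add, pow_one, hρ]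
      linarith
    | succ r ih =>
      rw [h.pow_succ_succ hp hg r]
      have h1 : ‖a p * a (p ^ (r + 1))‖ - ‖e p * a (p ^ r)‖ ≤
          ‖a p * a (p ^ (r + 1)) - e p * a (p ^ r)‖ := norm_sub_norm_le _ _
      rw [norm_mul, norm_mul, h.norm_e p hp hg, one_mul, hρ] at h1
      have h0 : 0 ≤ ‖a (p ^ r)‖ := norm_nonneg _
      have h2 : ‖a (p ^ r)‖ ≤ ‖a (p ^ (r + 1))‖ := by nlinarith
      nlinarith
  have hpow : ∀ r, ρ ^ r ≤ ‖a (p ^ r)‖ := by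
    intro r
    induction r with
    | zero => rw [pow_zero, pow_zero, h.one, norm_one]
    | succ r ih =>
      calc ρ ^ (r + 1) = ρ * ρ ^ r := by ring
        _ ≤ ρ * ‖a (p ^ r)‖ := mul_le_mul_of_nonneg_left ih (by linarith)
        _ ≤ _ := step r
  have hy : 1 < ρ ^ 2 / p := by
    rw [one_lt_div hp0]
    have h1 := Real.sq_sqrt hp0.le
    nlinarith [Real.sqrt_nonneg (p : ℝ)]
  obtain ⟨r, hr⟩ := pow_unbounded_of_one_lt C₁ hy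
  have hm' := hm (p ^ r)
  have hmem : p ^ r ∈ Finset.Icc 1 (p ^ r) :=
    Finset.mem_Icc.2 ⟨Nat.one_le_pow _ _ hp.pos, le_rfl⟩
  have h3 : ‖a (p ^ r)‖ ^ 2 ≤ ∑ n ∈ Finset.Icc 1 (p ^ r), ‖a n‖ ^ 2 :=
    Finset.single_le_sum (f := fun n => ‖a n‖ ^ 2) (fun _ _ => by positivity) hmem
  have h4 : (ρ ^ r) ^ 2 ≤ C₁ * (p : ℝ) ^ r := by
    calc (ρ ^ r) ^ 2 ≤ ‖a (p ^ r)‖ ^ 2 :=
          pow_le_pow_left₀ (by positivity) (hpow r) 2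
      _ ≤ _ := h3
      _ ≤ C₁ * ((p ^ r : ℕ) : ℝ) := hm'
      _ = _ := by push_cast; ring
  rw [div_pow, lt_div_iff₀ (by positivity)] at hr
  have h5 : (ρ ^ 2) ^ r = (ρ ^ r) ^ 2 := by ring
  linarith

end Fermat.Agent.S48.RK
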