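import Mathlib

/-!
# S48 / RK-Ineq : two real inequalities (Mathlib only)

* `exp_le_quad` : `exp u ≤ 1 + u + u²` on `[0, 3/2]`.  With `v = u/2 ≤ 3/4`: `Real.exp_bound'` (`n = 3`) gives
  `exp v ≤ 1 + v + v²/2 + (2/9) v³ ≤ 1 + v + (2/3) v²`; square: `≤ 1 + 2v + (43/12) v² ≤ 1 + 2v + 4v²`.
* `exp_le_local` : `exp (u - 2uT) = exp u * exp (-2uT) ≤ (1 + u + u²) / (1 + 2uT)` (`Real.add_one_le_exp`), and
  `(1 + 2uT) (1 + u + (u-T)²) - (1 + u + u²) = 2uT · u (1 + u - 2T) + T² + 2uT·T² ≥ 0`.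
-/

set_option autoImplicit false

namespace Fermat.Agent.S48.RK

theorem exp_le_quad {u : ℝ} (hu : 0 ≤ u) (hu' : u ≤ 3 / 2) : Real.exp u ≤ 1 + u + u ^ 2 := by
  obtain ⟨v, hv⟩ : ∃ v : ℝ, u = 2 * v := ⟨u / 2, by ring⟩
  subst hv
  have hv0 : 0 ≤ v := by linarith
  have hv1 : v ≤ 3 / 4 := by linarith
  have h1 := Real.exp_bound' hv0 (by linarith : v ≤ 1) (n := 3) (by norm_num)
  simp only [Finset.sum_range_succ, Finset.sum_range_zero, Nat.factorial] at h1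
  norm_num at h1
  have hv2 : 0 ≤ v ^ 2 := by positivity
  have hv3 : v ^ 3 ≤ 3 / 4 * v ^ 2 := by nlinarith
  have h2 : Real.exp v ≤ 1 + v + 2 / 3 * v ^ 2 := by linarith
  have h3 : Real.exp (2 * v) = Real.exp v * Real.exp v := by
    rw [← Real.exp_add]
    congr 1
    ring
  have hpos := Real.exp_pos v
  have h4 : Real.exp v * Real.exp v ≤ (1 + v + 2 / 3 * v ^ 2) * (1 + v + 2 / 3 * v ^ 2) :=
    mul_le_mul h2 h2 hpos.le (by positivity)
  have hv4 : v ^ 4 ≤ 9 / 16 * v ^ 2 := by nlinarith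
  rw [h3]
  nlinarith

theorem exp_le_local {u T : ℝ} (hu : 0 ≤ u) (hu' : u ≤ 3 / 2) (hT : 0 ≤ T) (hT' : T ≤ 1 / 2) :
    Real.exp (u - 2 * u * T) ≤ 1 + u + (u - T) ^ 2 := by
  have h1 := exp_le_quad hu hu'
  have hx : 0 ≤ 2 * u * T := by positivity
  have h2 : 1 + 2 * u * T ≤ Real.exp (2 * u * T) := by
    linarith [Real.add_one_le_exp (2 * u * T)]
  have h3 : Real.exp (u - 2 * u * T) * Real.exp (2 * u * T) = Real.exp u := by
    rw [← Real.exp_add]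
    congr 1
    ring
  have hpos := Real.exp_pos (u - 2 * u * T)
  have h4 : Real.exp (u - 2 * u * T) * (1 + 2 * u * T) ≤ 1 + u + u ^ 2 := by
    calc Real.exp (u - 2 * u * T) * (1 + 2 * u * T)
        ≤ Real.exp (u - 2 * u * T) * Real.exp (2 * u * T) :=
          mul_le_mul_of_nonneg_left h2 hpos.le
      _ = Real.exp u := h3
      _ ≤ _ := h1
  have h5 : 1 + u + u ^ 2 ≤ (1 + u + (u - T) ^ 2) * (1 + 2 * u * T) := by
    have h6 : 0 ≤ 1 + u - 2 * T := by linarith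
    have h7 : 0 ≤ 2 * u * T * (u * (1 + u - 2 * T)) + T ^ 2 + 2 * u * T * T ^ 2 := by positivity
    nlinarith
  exact le_of_mul_le_mul_right (h4.trans h5) (by positivity)

end Fermat.Agent.S48.RK
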