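import Fermat.Agent.S48.RK.Mean
import Fermat.Agent.S48.RK.Dirichlet
import Fermat.Agent.S48.RK.Growth
import Fermat.Agent.S48.RK.Ineq

/-!
# S48 / RK : `∑_{p ∤ N} |a_p|² p^{-s} ≤ log (1 / (s - 1)) + C`   (interface (I2) of S48)

* `main_abstract` : for any sequence satisfying `Formal` and `MeanSq`.
* `main`          : for `f` as in the statement S48.
* `meanSq_cuspForm` (file `Mean.lean`) gives `MeanSq` for every weight one cusp form on `Γ₁(N)`, so `main_abstract` applies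
  to all the conjugate forms.
-/

set_option autoImplicit false

open CongruenceSubgroup

namespace Fermat.Agent.S48.RK

variable {good : ℕ → Prop} {e a : ℕ → ℂ}

/-- the local inequality at a prime `p ≥ 25`. -/
theorem Formal.local_le (h : Formal good e a) {C₁ : ℝ} (hm : MeanSq a C₁) {p : ℕ} (hp : p.Prime)
    (hg : good p) (hp25 : 25 ≤ p) {s : ℝ} (hs : 1 < s) :
    Real.exp (‖a p‖ ^ 2 * (p : ℝ) ^ (-s) - 2 * (‖a p‖ ^ 2 * (p : ℝ) ^ (-s)) * (p : ℝ) ^ (-s))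
      ≤ 1 + ‖a p‖ ^ 2 * (p : ℝ) ^ (-s) + ‖a (p ^ 2)‖ ^ 2 * ((p : ℝ) ^ (-s)) ^ 2 := by
  have hp25' : (25 : ℝ) ≤ p := by exact_mod_cast hp25
  have hp0 : (0 : ℝ) < p := by linarith
  set T : ℝ := (p : ℝ) ^ (-s) with hT
  have hT0 : 0 ≤ T := Real.rpow_nonneg hp0.le _
  have hT1 : T ≤ (p : ℝ)⁻¹ := by
    rw [hT, ← Real.rpow_neg_one]
    exact Real.rpow_le_rpow_of_exponent_le (by linarith) (by linarith)
  have hpinv : (p : ℝ)⁻¹ ≤ 1 / 25 := by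
    rw [inv_eq_one_div]
    exact one_div_le_one_div_of_le (by norm_num) hp25'
  -- the bound `u ≤ 3/2`
  have hx := h.norm_le hm hp hg
  set r : ℝ := Real.sqrt p with hr
  have hr2 : r ^ 2 = p := Real.sq_sqrt hp0.le
  have hr5 : 5 ≤ r := by
    rw [hr]
    apply Real.le_sqrt_of_sq_le
    linarith
  have hx2 : ‖a p‖ ^ 2 ≤ 3 / 2 * p := by
    have h1 : ‖a p‖ ^ 2 ≤ (1 + r) ^ 2 := pow_le_pow_left₀ (norm_nonneg _) hx 2
    nlinarith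
  have hu' : ‖a p‖ ^ 2 * T ≤ 3 / 2 := by
    calc ‖a p‖ ^ 2 * T ≤ (3 / 2 * p) * (p : ℝ)⁻¹ :=
          mul_le_mul hx2 hT1 hT0 (by positivity)
      _ = 3 / 2 := by field_simp
  have h1 := exp_le_local (u := ‖a p‖ ^ 2 * T) (T := T) (by positivity) hu' hT0 (by linarith)
  refine h1.trans ?_
  have h2 : (‖a p‖ ^ 2 - 1) ^ 2 ≤ ‖a (p ^ 2)‖ ^ 2 := by
    rw [h.sq hp hg]
    have h3 : |‖a p ^ 2‖ - ‖e p‖| ≤ ‖a p ^ 2 - e p‖ := abs_norm_sub_norm_le _ _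
    rw [norm_pow, h.norm_e p hp hg] at h3
    calc (‖a p‖ ^ 2 - 1) ^ 2 = |‖a p‖ ^ 2 - 1| ^ 2 := (sq_abs _).symm
      _ ≤ ‖a p ^ 2 - e p‖ ^ 2 := pow_le_pow_left₀ (abs_nonneg _) h3 2
  have h4 : (‖a p‖ ^ 2 * T - T) ^ 2 = (‖a p‖ ^ 2 - 1) ^ 2 * T ^ 2 := by ring
  rw [h4]
  have := mul_le_mul_of_nonneg_right h2 (sq_nonneg T)
  linarith

theorem main_abstract (h : Formal good e a) {C₁ : ℝ} (hm : MeanSq a C₁) :
    ∃ C : ℝ, ∀ s : ℝ, 1 < s → s ≤ 2 → ∀ P : Finset ℕ, (∀ p ∈ P, p.Prime ∧ good p) →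
      ∑ p ∈ P, ‖a p‖ ^ 2 * (p : ℝ) ^ (-s) ≤ Real.log (1 / (s - 1)) + C := by
  classical
  have hC₁ : 1 ≤ C₁ := by
    have := hm 1
    simpa [h.one] using this
  have hD := dirichlet_bound (fun n => ‖a n‖ ^ 2) (fun n => by positivity) C₁ hm
  refine ⟨Real.log (4 * C₁) + 8 * C₁ + ∑ p ∈ Finset.range 25, ‖a p‖ ^ 2, ?_⟩
  intro s hs hs2 P hP
  have hs0 : 0 < s - 1 := by linarith
  have hpos : ∀ p ∈ P, (1 : ℝ) ≤ p := fun p hp => by exact_mod_cast (hP p hp).1.one_lt.le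
  -- small primes
  have hsmall : ∑ p ∈ P.filter (fun p => p < 25), ‖a p‖ ^ 2 * (p : ℝ) ^ (-s)
      ≤ ∑ p ∈ Finset.range 25, ‖a p‖ ^ 2 := by
    calc ∑ p ∈ P.filter (fun p => p < 25), ‖a p‖ ^ 2 * (p : ℝ) ^ (-s)
        ≤ ∑ p ∈ P.filter (fun p => p < 25), ‖a p‖ ^ 2 := by
          refine Finset.sum_le_sum fun p hp => ?_
          have hp1 := hpos p (Finset.mem_filter.mp hp).1
          have : (p : ℝ) ^ (-s) ≤ 1 := Real.rpow_le_one_of_one_le_of_nonpos hp1 (by linarith)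
          exact mul_le_of_le_one_right (by positivity) this
      _ ≤ ∑ p ∈ Finset.range 25, ‖a p‖ ^ 2 := by
          refine Finset.sum_le_sum_of_subset_of_nonneg ?_ (fun _ _ _ => by positivity)
          intro p hp
          exact Finset.mem_range.mpr (Finset.mem_filter.mp hp).2
  -- large primes
  set Q := P.filter (fun p => ¬ p < 25) with hQ
  have hQP : ∀ p ∈ Q, p.Prime ∧ good p := fun p hp => hP p (Finset.mem_filter.mp hp).1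
  have hQ25 : ∀ p ∈ Q, 25 ≤ p := fun p hp => not_lt.mp (Finset.mem_filter.mp hp).2
  obtain ⟨S, hS1, -, hS⟩ := h.exists_finset s Q hQP
  have hexp : Real.exp (∑ p ∈ Q, (‖a p‖ ^ 2 * (p : ℝ) ^ (-s)
      - 2 * (‖a p‖ ^ 2 * (p : ℝ) ^ (-s)) * (p : ℝ) ^ (-s))) ≤ 4 * C₁ / (s - 1) := by
    rw [Real.exp_sum]
    calc ∏ p ∈ Q, Real.exp (‖a p‖ ^ 2 * (p : ℝ) ^ (-s)
          - 2 * (‖a p‖ ^ 2 * (p : ℝ) ^ (-s)) * (p : ℝ) ^ (-s))
        ≤ ∏ p ∈ Q, (1 + ‖a p‖ ^ 2 * (p : ℝ) ^ (-s) + ‖a (p ^ 2)‖ ^ 2 * ((p : ℝ) ^ (-s)) ^ 2) :=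
          Finset.prod_le_prod (fun _ _ => (Real.exp_pos _).le)
            (fun p hp => h.local_le hm (hQP p hp).1 (hQP p hp).2 (hQ25 p hp) hs)
      _ = ∑ n ∈ S, ‖a n‖ ^ 2 * (n : ℝ) ^ (-s) := hS
      _ ≤ 4 * C₁ / (s - 1) := hD s hs hs2 S hS1
  have hlog : ∑ p ∈ Q, (‖a p‖ ^ 2 * (p : ℝ) ^ (-s)
      - 2 * (‖a p‖ ^ 2 * (p : ℝ) ^ (-s)) * (p : ℝ) ^ (-s))
      ≤ Real.log (4 * C₁) + Real.log (1 / (s - 1)) := by
    rw [← Real.log_mul (by positivity) (by positivity), Real.le_log_iff_exp_le (by positivity)]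
    calc _ ≤ 4 * C₁ / (s - 1) := hexp
      _ = 4 * C₁ * (1 / (s - 1)) := by ring
  have hcorr : ∑ p ∈ Q, 2 * (‖a p‖ ^ 2 * (p : ℝ) ^ (-s)) * (p : ℝ) ^ (-s) ≤ 8 * C₁ := by
    have h2 := hD 2 (by norm_num) le_rfl Q (fun p hp => (hQP p hp).1.one_lt.le)
    calc ∑ p ∈ Q, 2 * (‖a p‖ ^ 2 * (p : ℝ) ^ (-s)) * (p : ℝ) ^ (-s)
        ≤ ∑ p ∈ Q, 2 * (‖a p‖ ^ 2 * (p : ℝ) ^ (-(2 : ℝ))) := by
          refine Finset.sum_le_sum fun p hp => ?_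
          have hp1 := hpos p (Finset.mem_filter.mp hp).1
          have hp0 : (0 : ℝ) < p := by linarith
          have e1 : (p : ℝ) ^ (-s) * (p : ℝ) ^ (-s) = (p : ℝ) ^ (-s + -s) :=
            (Real.rpow_add hp0 _ _).symm
          have e2 : (p : ℝ) ^ (-s + -s) ≤ (p : ℝ) ^ (-(2 : ℝ)) :=
            Real.rpow_le_rpow_of_exponent_le hp1 (by linarith)
          have e3 : 2 * (‖a p‖ ^ 2 * (p : ℝ) ^ (-s)) * (p : ℝ) ^ (-s)
              = 2 * (‖a p‖ ^ 2 * ((p : ℝ) ^ (-s) * (p : ℝ) ^ (-s))) := by ring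
          rw [e3, e1]
          gcongr
      _ = 2 * ∑ p ∈ Q, ‖a p‖ ^ 2 * (p : ℝ) ^ (-(2 : ℝ)) := by rw [Finset.mul_sum]
      _ ≤ 2 * (4 * C₁ / (2 - 1)) := by gcongr
      _ = 8 * C₁ := by ring
  have hsplit : ∑ p ∈ P, ‖a p‖ ^ 2 * (p : ℝ) ^ (-s)
      = ∑ p ∈ P.filter (fun p => p < 25), ‖a p‖ ^ 2 * (p : ℝ) ^ (-s)
        + ∑ p ∈ Q, ‖a p‖ ^ 2 * (p : ℝ) ^ (-s) :=
    (Finset.sum_filter_add_sum_filter_not P _ _).symm
  rw [Finset.sum_sub_distrib] at hlog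
  rw [hsplit]
  linarith

/-- **(I2)** for the form of S48. -/
theorem main (N : ℕ) [NeZero N] (ε : DirichletCharacter ℂ N) (f : CuspForm (Gamma1 N) 1)
    (hf₁ : ModularFormClass.qCoeff f 1 = 1)
    (hT : ∀ p : ℕ, p.Prime → ¬ p ∣ N → ∀ n : ℕ,
        ModularFormClass.qCoeff f (p * n) +
            ε (p : ZMod N) * (if p ∣ n then ModularFormClass.qCoeff f (n / p) else 0) =
          ModularFormClass.qCoeff f p * ModularFormClass.qCoeff f n) :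
    ∃ C : ℝ, ∀ s : ℝ, 1 < s → s ≤ 2 → ∀ P : Finset ℕ, (∀ p ∈ P, p.Prime ∧ ¬ p ∣ N) →
      ∑ p ∈ P, ‖ModularFormClass.qCoeff f p‖ ^ 2 * (p : ℝ) ^ (-s) ≤ Real.log (1 / (s - 1)) + C := by
  obtain ⟨C₁, hm⟩ := meanSq_cuspForm N f
  refine main_abstract (good := fun p => ¬ p ∣ N) (e := fun p => ε (p : ZMod N)) ⟨hf₁, hT, ?_⟩ hm
  intro p hp hpN
  have hu : IsUnit (p : ZMod N) := (ZMod.isUnit_iff_coprime p N).mpr
    ((Nat.Prime.coprime_iff_not_dvd hp).mpr hpN)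
  obtain ⟨u, hu⟩ := hu
  rw [← hu]
  exact DirichletCharacter.unit_norm_eq_one ε u

end Fermat.Agent.S48.RK
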