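import Fermat.Agent.S48.RK.Defs
import Fermat.Agent.S48.RK.Bessel
import Fermat.Prelude.Def_FLTPrelim_Modularity

/-!
# S48 / RK-Mean : `∑_{n ≤ X} |a_n|² ≤ C₁ X` for a cusp form of weight one on `Γ₁(N)`

PROOF SKETCH.  `CuspFormClass.exists_bound f : ∃ B, ∀ τ, ‖f τ‖ ≤ B / τ.im ^ ((1 : ℤ) / 2 : ℝ)`.
`ModularForm.hasSum_qExpansion` (`h = 1`, `1 ∈ strictPeriods` by `strictPeriods_Gamma1`) :
`f τ = ∑ a_n 𝕢 1 τ ^ n`, `𝕢 1 τ = exp (2 π i τ)`.  Fix `X ≥ 1`, `y = 1 / X`, `b n = a_n exp (-2 π n y)`.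
Summable norms (the power series converges absolutely at `|q| < 1`: `HasSum.summable.norm`).
`∑' b n e(n x) = f (x + i y)`, of norm `≤ B / √y = B √X`.  `bessel` with `S = Icc 1 X`:
`∑_{n ≤ X} |a_n|² exp (-4 π n / X) ≤ B² X`, and `exp (-4 π n / X) ≥ exp (-4 π)`.  `C₁ = exp (4 π) B²`.
-/

set_option autoImplicit false

open CongruenceSubgroup

namespace Fermat.Agent.S48.RK

theorem meanSq_cuspForm (N : ℕ) [NeZero N] (f : CuspForm (Gamma1 N) 1) :
    ∃ C₁ : ℝ, MeanSq (fun n => ModularFormClass.qCoeff f n) C₁ := by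
  obtain ⟨B, hB⟩ := CuspFormClass.exists_bound f
  have hB0 : 0 ≤ B := by
    have h := (norm_nonneg _).trans (hB UpperHalfPlane.I)
    simpa using h
  refine ⟨Real.exp (4 * Real.pi) * B ^ 2, fun X => ?_⟩
  rcases Nat.eq_zero_or_pos X with rfl | hX
  · simp
  have hXr : (0 : ℝ) < X := by exact_mod_cast hX
  set y : ℝ := 1 / X with hy
  have hy0 : 0 < y := by positivity
  set a : ℕ → ℂ := fun n => ModularFormClass.qCoeff f n with ha
  set b : ℕ → ℂ := fun n => a n * (Real.exp (-(2 * Real.pi * n * y)) : ℝ) with hb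
  have him : ∀ x : ℝ, 0 < ((x : ℂ) + y * Complex.I).im := by
    intro x; simpa using hy0
  have hper : (1 : ℝ) ∈ (Gamma1 N : Subgroup (GL (Fin 2) ℝ)).strictPeriods := by
    rw [strictPeriods_Gamma1]
    exact AddSubgroup.mem_zmultiples 1
  have hsum : ∀ x : ℝ, HasSum (fun n : ℕ => b n * Complex.exp (2 * Real.pi * Complex.I * n * x))
      (f ⟨(x : ℂ) + y * Complex.I, him x⟩) := by
    intro x
    have h := ModularForm.hasSum_qExpansion f one_pos hper ⟨(x : ℂ) + y * Complex.I, him x⟩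
    convert h using 2 with n
    rw [hb]
    simp only [ha, ModularFormClass.qCoeff, mul_assoc]
    congr 1
    rw [Function.Periodic.qParam, ← Complex.exp_nat_mul, Complex.ofReal_exp, ← Complex.exp_add]
    congr 1
    push_cast
    have hI : Complex.I * Complex.I = -1 := Complex.I_mul_I
    linear_combination (-(2 * (Real.pi : ℂ) * n * y)) * hI
  have hbn : ∀ n, ‖b n‖ = ‖a n‖ * Real.exp (-(2 * Real.pi * n * y)) := by
    intro n
    rw [hb]
    simp only [norm_mul, Complex.norm_real, Real.norm_eq_abs, abs_of_pos (Real.exp_pos _)]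
  have hbs : Summable fun n => ‖b n‖ := by
    have h := (hsum 0).summable.norm
    simpa using h
  have hbd : ∀ x : ℝ, ‖∑' n : ℕ, b n * Complex.exp (2 * Real.pi * Complex.I * n * x)‖
      ≤ B * Real.sqrt X := by
    intro x
    rw [(hsum x).tsum_eq]
    refine (hB _).trans (le_of_eq ?_)
    have him' : (⟨(x : ℂ) + y * Complex.I, him x⟩ : UpperHalfPlane).im = y := by
      simp [UpperHalfPlane.im]
    rw [him', hy]
    have h12 : (((1 : ℤ) : ℝ) / 2) = 1 / 2 := by norm_num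
    rw [h12, ← Real.sqrt_eq_rpow, Real.sqrt_div zero_le_one, Real.sqrt_one]
    field_simp
  have hmain := bessel b hbs (B * Real.sqrt X) (by positivity) hbd (Finset.Icc 1 X)
  have hsq : (B * Real.sqrt X) ^ 2 = B ^ 2 * X := by
    rw [mul_pow, Real.sq_sqrt hXr.le]
  rw [hsq] at hmain
  have hterm : ∀ n ∈ Finset.Icc 1 X, ‖a n‖ ^ 2 ≤ Real.exp (4 * Real.pi) * ‖b n‖ ^ 2 := by
    intro n hn
    have hnX : (n : ℝ) ≤ X := by exact_mod_cast (Finset.mem_Icc.mp hn).2
    rw [hbn, mul_pow, ← Real.exp_nat_mul, mul_left_comm, ← Real.exp_add]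
    have hny : (n : ℝ) * y ≤ 1 := by
      rw [hy, mul_one_div, div_le_one hXr]; exact hnX
    have hexp : 1 ≤ Real.exp (4 * Real.pi + ((2 : ℕ) : ℝ) * -(2 * Real.pi * n * y)) := by
      apply Real.one_le_exp
      push_cast
      nlinarith [Real.pi_pos]
    nlinarith [sq_nonneg ‖a n‖]
  calc ∑ n ∈ Finset.Icc 1 X, ‖a n‖ ^ 2
      ≤ ∑ n ∈ Finset.Icc 1 X, Real.exp (4 * Real.pi) * ‖b n‖ ^ 2 := Finset.sum_le_sum hterm
    _ = Real.exp (4 * Real.pi) * ∑ n ∈ Finset.Icc 1 X, ‖b n‖ ^ 2 := by rw [Finset.mul_sum]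
    _ ≤ Real.exp (4 * Real.pi) * (B ^ 2 * X) :=
        mul_le_mul_of_nonneg_left hmain (Real.exp_pos _).le
    _ = Real.exp (4 * Real.pi) * B ^ 2 * X := by ring

end Fermat.Agent.S48.RK
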