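import Fermat.Agent.S48.Defs
import Fermat.Agent.S48.RK.Main

/-!
# S48 / RK : bridge from the finite-set form `RK.main` to `UpperDens`
-/

set_option autoImplicit false

open CongruenceSubgroup

namespace Fermat.Agent.S48

theorem pterm_nonneg {P : ℕ → Prop} {w : ℕ → ℝ} (hw : ∀ p, 0 ≤ w p) (s : ℝ) (p : ℕ) :
    0 ≤ pterm P w s p := by
  unfold pterm
  split_ifs
  · exact mul_nonneg (hw p) (Real.rpow_nonneg (Nat.cast_nonneg p) _)
  · exact le_rfl

/-- finite-set form `⟹` `UpperDens`. -/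
theorem upperDens_of_finset {P : ℕ → Prop} {w : ℕ → ℝ} (hw : ∀ p, 0 ≤ w p) {c : ℝ}
    (h : ∃ C : ℝ, ∀ s : ℝ, 1 < s → s ≤ 2 → ∀ F : Finset ℕ, (∀ p ∈ F, p.Prime ∧ P p) →
      ∑ p ∈ F, w p * (p : ℝ) ^ (-s) ≤ c * lg s + C) :
    UpperDens P w c := by
  classical
  obtain ⟨C, hC⟩ := h
  refine ⟨C, fun s hs hs2 => ?_⟩
  have key : ∀ F : Finset ℕ, ∑ p ∈ F, pterm P w s p ≤ c * lg s + C := by
    intro F
    have h1 := hC s hs hs2 (F.filter fun p => p.Prime ∧ P p)
      (fun p hp => (Finset.mem_filter.mp hp).2)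
    rw [Finset.sum_filter] at h1
    refine le_trans (le_of_eq ?_) h1
    refine Finset.sum_congr rfl fun p _ => ?_
    unfold pterm
    congr
  have hsum : Summable (pterm P w s) :=
    summable_of_sum_le (fun p => pterm_nonneg hw s p) key
  exact ⟨hsum, hsum.tsum_le_of_sum_le key⟩

namespace RK

/-- **(I2) Rankin.**  `∑_{p ∤ N} |a_p|² p^{-s} ≤ log (1/(s-1)) + O(1)`. -/
theorem rankin (N : ℕ) [NeZero N] (ε : DirichletCharacter ℂ N) (f : CuspForm (Gamma1 N) 1)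
    (hf : IsFormalEigen N ε f) :
    UpperDens (fun p => ¬ p ∣ N) (fun p => ‖ModularFormClass.qCoeff f p‖ ^ 2) 1 := by
  refine upperDens_of_finset (fun p => by positivity) ?_
  obtain ⟨C, hC⟩ := main N ε f hf.1 hf.2
  exact ⟨C, fun s hs hs2 F hF => by rw [one_mul]; exact hC s hs hs2 F hF⟩

end RK

end Fermat.Agent.S48
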